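/-
P-SS2, row 1072 SS2-C5g CHANGE-PARAM (helper37): `Fermat.Agent.H12.SS2.ChangeParamStatement`.

If `(ϖ, u₀)` are regular parameters at `𝔪` and `u = e u₀ + ϖ c` with `e` a unit of `B_𝔪`,
`c ∈ B_𝔪`, `u ∈ B`, then `(ϖ, u)` are regular parameters at `𝔪`.
-/
import Fermat.Agent.H12.SS2.Reg11Rows2

set_option autoImplicit false

namespace Fermat.Agent.H37.SS2

section Core

variable {A E : Type*} [CommRing A] [Field E] [Algebra A E] (B : Subalgebra A E)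

/-- The abstract core of CHANGE-PARAM, for a subalgebra `B` of a field `E` and a prime ideal
`𝔪` of `B` containing `π`. -/
theorem cp_core (𝔪 : Ideal B) [h𝔪 : 𝔪.IsPrime] (π : B) (hπ : π ∈ 𝔪) (u₀ u : B)
    (h1 : u₀ ∈ 𝔪)
    (h2 : ∀ z ∈ 𝔪, ∃ s, s ∉ 𝔪 ∧ ∃ b₁ b₂ : B, s * z = π * b₁ + u₀ * b₂)
    (h3 : ∀ (n : ℕ) (b : B), (∃ b' : B, u₀ ^ n * b = π * b') →
      ∃ s, s ∉ 𝔪 ∧ ∃ b' : B, s * b = π * b')
    (e c : E) (he0 : e ≠ 0)
    (he : ∃ b : B, b ∉ 𝔪 ∧ (b : E) * e ∈ B)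
    (hei : ∃ b : B, b ∉ 𝔪 ∧ (b : E) * e⁻¹ ∈ B)
    (hc : ∃ b : B, b ∉ 𝔪 ∧ (b : E) * c ∈ B)
    (hu : (u : E) = e * (u₀ : E) + (π : E) * c) :
    u ∈ 𝔪 ∧
    (∀ z ∈ 𝔪, ∃ s, s ∉ 𝔪 ∧ ∃ b₁ b₂ : B, s * z = π * b₁ + u * b₂) ∧
    (∀ (n : ℕ) (b : B), (∃ b' : B, u ^ n * b = π * b') →
      ∃ s, s ∉ 𝔪 ∧ ∃ b' : B, s * b = π * b') := by
  obtain ⟨be, hbe, hbe'⟩ := he
  obtain ⟨d, hd, hd'⟩ := hei
  obtain ⟨bc, hbc, hbc'⟩ := hc
  -- the numerators
  obtain ⟨e', he'⟩ : ∃ e' : B, (e' : E) = (be : E) * e := ⟨⟨_, hbe'⟩, rfl⟩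
  obtain ⟨f, hf⟩ : ∃ f : B, (f : E) = (d : E) * e⁻¹ := ⟨⟨_, hd'⟩, rfl⟩
  obtain ⟨c', hc'⟩ : ∃ c' : B, (c' : E) = (bc : E) * c := ⟨⟨_, hbc'⟩, rfl⟩
  have hfe : (f : E) * e = (d : E) := by
    rw [hf, mul_assoc, inv_mul_cancel₀ he0, mul_one]
  -- `e'` is not in `𝔪`
  have he'm : e' ∉ 𝔪 := by
    intro h
    have h1' : f * e' = d * be := by
      apply Subtype.ext
      push_cast
      linear_combination (f : E) * he' + (be : E) * hfe
    have h2' : d * be ∈ 𝔪 := h1' ▸ 𝔪.mul_mem_left f h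
    rcases h𝔪.mem_or_mem h2' with h | h
    · exact hd h
    · exact hbe h
  -- the key identity `be bc u = e' bc u₀ + π be c'`
  have key : be * bc * u = e' * bc * u₀ + π * (be * c') := by
    apply Subtype.ext
    push_cast
    linear_combination ((be : E) * bc) * hu - ((bc : E) * u₀) * he' - ((π : E) * be) * hc'
  refine ⟨?_, ?_, ?_⟩
  · -- `u ∈ 𝔪`
    have h : be * bc * u ∈ 𝔪 := by
      rw [key]
      exact 𝔪.add_mem (𝔪.mul_mem_left _ h1) (𝔪.mul_mem_right _ hπ)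
    rcases h𝔪.mem_or_mem h with h | h
    · rcases h𝔪.mem_or_mem h with h | h
      · exact absurd h hbe
      · exact absurd h hbc
    · exact h
  · -- (REG)
    intro z hz
    obtain ⟨s, hs, b₁, b₂, hsz⟩ := h2 z hz
    refine ⟨d * bc * s, ?_, d * bc * b₁ - f * c' * b₂, f * bc * b₂, ?_⟩
    · intro h
      rcases h𝔪.mem_or_mem h with h | h
      · rcases h𝔪.mem_or_mem h with h | h
        · exact hd h
        · exact hbc h
      · exact hs h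
    · have hsz' : (s : E) * z = (π : E) * b₁ + (u₀ : E) * b₂ := by
        have := congrArg (fun t : B => (t : E)) hsz
        simpa using this
      apply Subtype.ext
      push_cast
      linear_combination ((d : E) * bc) * hsz' - ((f : E) * bc * b₂) * hu
        + ((π : E) * f * b₂) * hc' - ((u₀ : E) * bc * b₂) * hfe
  · -- (TF)
    intro n b hb
    obtain ⟨b', hb'⟩ := hb
    -- `(be bc u) ^ n = (e' bc u₀) ^ n + π * w`
    obtain ⟨w, hw⟩ : ∃ w : B, (be * bc * u) ^ n = (e' * bc * u₀) ^ n + π * w := by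
      obtain ⟨w', hw'⟩ := sub_dvd_pow_sub_pow (be * bc * u) (e' * bc * u₀) n
      refine ⟨be * c' * w', ?_⟩
      have h0 : be * bc * u - e' * bc * u₀ = π * (be * c') := by
        rw [key]; ring
      rw [h0] at hw'
      linear_combination hw'
    have h4 : u₀ ^ n * ((e' * bc) ^ n * b) = π * ((be * bc) ^ n * b' - w * b) := by
      have h5 : (be * bc * u) ^ n * b = (be * bc) ^ n * (u ^ n * b) := by ring
      rw [hw, hb'] at h5
      linear_combination h5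
    obtain ⟨s₀, hs₀, b'', hb''⟩ := h3 n ((e' * bc) ^ n * b) ⟨_, h4⟩
    refine ⟨s₀ * (e' * bc) ^ n, ?_, b'', ?_⟩
    · intro h
      rcases h𝔪.mem_or_mem h with h | h
      · exact hs₀ h
      · rcases h𝔪.mem_or_mem (h𝔪.mem_of_pow_mem n h) with h | h
        · exact he'm h
        · exact hbc h
    · rw [mul_assoc]
      exact hb''

end Core

/-- **CHANGE-PARAM** (row 1072): `Fermat.Agent.H12.SS2.ChangeParamStatement`. -/
theorem changeParam : Fermat.Agent.H12.SS2.ChangeParamStatement := by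
  intro A _ _ _ E _ _ _ _ ϖ _ y _ _ 𝔪 h𝔪 hϖ u₀ u h0 e c he hc hu
  have := h𝔪.isPrime
  obtain ⟨h1, h2, h3⟩ := h0
  exact cp_core (Fermat.Agent.H22.KL.chartClosure A E y) 𝔪
    (algebraMap A (Fermat.Agent.H22.KL.chartClosure A E y) ϖ) hϖ u₀ u h1 h2 h3 e c he.1 he.2.1
    he.2.2 hc hu

end Fermat.Agent.H37.SS2
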