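/-
P-SS2 row 895 (SS2-A4 APPROX), part (1), helper37: WEAK APPROXIMATION (Mathlib only).

`V i` (`i` in a finite type) pairwise incomparable valuation subrings of a field `E`, each
archimedean (`VArch`: for `v(z) < 1` and any `y`, `v(z ^ m * y) < 1` for `m` large; this holds
for discrete valuation rings, `vArch_of_dvr`, and for every rank one valuation ring) and `≠ ⊤`.
Then for `a i ∈ E` and nonzero `b i ∈ E` there is `g ∈ E` with `v_i (g - a i) ≤ v_i (b i)`, i.e.
`g - a i ∈ b i • V i`, for all `i`.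

* `weakApprox_val`, `weakApprox_mem` : the general statement;
* `weakApprox_dvr` : pairwise DISTINCT discrete valuation subrings;
* `weakApprox_dvr_pow` : `g - a i ∈ ϖ i ^ N • V i`;
* `weakApprox_dvr_unit` : for units `a i`, moreover `g` is a unit of every `V i`;
* `wa_sep`, `wa_idem` : separating elements and approximate idempotents.
-/
import Mathlib

set_option autoImplicit false

namespace Fermat.Agent.H37.SS2

variable {E : Type*} [Field E]

section Order

variable {Γ : Type*} [LinearOrderedCommGroupWithZero Γ]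

theorem wa_F1 {a b : Γ} (ha : 1 < a) (hb : b ≤ 1) (hb0 : b ≠ 0) : 1 < a * b⁻¹ := by
  have h1 : 1 ≤ b⁻¹ := (one_le_inv₀ (zero_lt_iff.mpr hb0)).mpr hb
  exact one_lt_mul_of_lt_of_le' ha h1

theorem wa_F2 {a b : Γ} (ha : a ≤ 1) (hb : 1 < b) : a * b⁻¹ < 1 := by
  have h1 : b⁻¹ < 1 := inv_lt_one_of_one_lt₀ hb
  exact Right.mul_lt_one_of_le_of_lt ha h1

theorem wa_F3 {a b : Γ} (ha : 1 < a) (hb : 1 < b) (m : ℕ) : 1 < a ^ m * b := by
  have h1 : 1 ≤ a ^ m := one_le_pow_of_one_le' ha.le m
  exact Right.one_lt_mul_of_le_of_lt h1 hb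

theorem wa_F4 {a b : Γ} (ha : a ≤ 1) (hb : b < 1) (m : ℕ) : a ^ m * b < 1 := by
  have h1 : a ^ m ≤ 1 := Right.pow_le_one_of_le ha
  exact Right.mul_lt_one_of_le_of_lt h1 hb

end Order

/-- The archimedean property of a valuation subring (it holds for discrete valuation rings and,
more generally, in rank one). -/
def VArch (V : ValuationSubring E) : Prop :=
  ∀ z : E, V.valuation z < 1 → ∀ y : E, ∃ M : ℕ, ∀ m, M ≤ m → V.valuation (z ^ m * y) < 1

theorem wa_lt_of_not_mem {V : ValuationSubring E} {x : E} (hx : x ∉ V) : 1 < V.valuation x :=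
  lt_of_not_ge fun h => hx ((V.valuation_le_one_iff x).mp h)

/-- two incomparable valuation subrings -/
theorem wa_two {V W : ValuationSubring E} (h1 : ¬ W ≤ V) (h2 : ¬ V ≤ W) :
    ∃ z : E, 1 < V.valuation z ∧ W.valuation z < 1 := by
  obtain ⟨x, hxW, hxV⟩ := SetLike.not_le_iff_exists.mp h1
  obtain ⟨y, hyV, hyW⟩ := SetLike.not_le_iff_exists.mp h2
  have hy0 : y ≠ 0 := by
    rintro rfl
    exact hyW W.zero_mem
  refine ⟨x * y⁻¹, ?_, ?_⟩
  · rw [map_mul, map_inv₀]
    exact wa_F1 (wa_lt_of_not_mem hxV) ((V.valuation_le_one_iff y).mpr hyV)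
      ((Valuation.ne_zero_iff _).mpr hy0)
  · rw [map_mul, map_inv₀]
    exact wa_F2 ((W.valuation_le_one_iff x).mpr hxW) (wa_lt_of_not_mem hyW)

/-- uniform bound from the archimedean property, over a finite set of indices -/
theorem wa_uniform {ι : Type*} (V : ι → ValuationSubring E) (harch : ∀ i, VArch (V i))
    (S : Finset ι) (z : E) (hz : ∀ j ∈ S, (V j).valuation z < 1) (y : ι → E) :
    ∃ M : ℕ, ∀ m, M ≤ m → ∀ j ∈ S, (V j).valuation (z ^ m * y j) < 1 := by
  classical
  induction S using Finset.induction_on with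
  | empty => exact ⟨0, fun _ _ j hj => absurd hj (Finset.notMem_empty j)⟩
  | insert a S ha ih =>
    obtain ⟨M, hM⟩ := ih fun j hj => hz j (Finset.mem_insert_of_mem hj)
    obtain ⟨M', hM'⟩ := harch a z (hz a (Finset.mem_insert_self a S)) (y a)
    refine ⟨max M M', fun m hm j hj => ?_⟩
    rcases Finset.mem_insert.mp hj with rfl | hj
    · exact hM' m (le_trans (le_max_right _ _) hm)
    · exact hM m (le_trans (le_max_left _ _) hm) j hj

/-- **Separation**: an element which is large at `i` and small at all `j ∈ S`. -/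
theorem wa_sep {ι : Type*} (V : ι → ValuationSubring E) (harch : ∀ i, VArch (V i))
    (hinc : ∀ i j, i ≠ j → ¬ V i ≤ V j) (htop : ∀ i, V i ≠ ⊤) (i : ι) (S : Finset ι)
    (hi : i ∉ S) : ∃ z : E, 1 < (V i).valuation z ∧ ∀ j ∈ S, (V j).valuation z < 1 := by
  classical
  induction S using Finset.induction_on with
  | empty =>
    have : ∃ x : E, x ∉ V i := by
      by_contra hcon
      push Not at hcon
      exact htop i (eq_top_iff.mpr fun x _ => hcon x)
    obtain ⟨x, hx⟩ := this
    exact ⟨x, wa_lt_of_not_mem hx, fun j hj => absurd hj (Finset.notMem_empty j)⟩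
  | insert n S hn ih =>
    have hin : i ≠ n := fun h => hi (h ▸ Finset.mem_insert_self _ _)
    obtain ⟨z, hzi, hzS⟩ := ih fun h => hi (Finset.mem_insert_of_mem h)
    obtain ⟨y, hyi, hyn⟩ := wa_two (hinc n i (Ne.symm hin)) (hinc i n hin)
    have hz0 : z ≠ 0 := by
      rintro rfl
      rw [map_zero] at hzi
      exact not_lt.mpr zero_le_one hzi
    by_cases hzn : (V n).valuation z ≤ 1
    · -- `z ^ m * y`
      obtain ⟨M, hM⟩ := wa_uniform V harch S z hzS (fun _ => y)
      refine ⟨z ^ M * y, ?_, fun j hj => ?_⟩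
      · rw [map_mul, map_pow]
        exact wa_F3 hzi hyi M
      · rcases Finset.mem_insert.mp hj with rfl | hj
        · rw [map_mul, map_pow]
          exact wa_F4 hzn hyn M
        · exact hM M le_rfl j hj
    · -- `z ^ m / (1 + z ^ m) * y`
      have hzn' : 1 < (V n).valuation z := not_le.mp hzn
      obtain ⟨M, hM⟩ := wa_uniform V harch S z hzS (fun _ => y)
      have hbig : ∀ (W : ValuationSubring E), 1 < W.valuation z →
          W.valuation (z ^ (M + 1) * (1 + z ^ (M + 1))⁻¹) = 1 := by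
        intro W hW
        have h1 : (1 : W.ValueGroup) < W.valuation (z ^ (M + 1)) := by
          rw [map_pow]
          exact one_lt_pow' hW (Nat.succ_ne_zero M)
        have h2 : W.valuation (1 + z ^ (M + 1)) = W.valuation (z ^ (M + 1)) := by
          refine Valuation.map_add_eq_of_lt_right (v := W.valuation) ?_
          rw [map_one]
          exact h1
        rw [map_mul, map_inv₀, h2]
        exact mul_inv_cancel₀ ((Valuation.ne_zero_iff _).mpr (pow_ne_zero _ hz0))
      have hsmall : ∀ (W : ValuationSubring E), W.valuation z < 1 →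
          W.valuation (z ^ (M + 1) * (1 + z ^ (M + 1))⁻¹) = W.valuation (z ^ (M + 1)) := by
        intro W hW
        have h1 : W.valuation (z ^ (M + 1)) < 1 := by
          rw [map_pow]
          exact pow_lt_one' hW (Nat.succ_ne_zero M)
        have h2 : W.valuation (1 + z ^ (M + 1)) = 1 := Valuation.map_one_add_of_lt (v := W.valuation) h1
        rw [map_mul, map_inv₀, h2, inv_one, mul_one]
      refine ⟨z ^ (M + 1) * (1 + z ^ (M + 1))⁻¹ * y, ?_, fun j hj => ?_⟩
      · rw [map_mul, hbig _ hzi, one_mul]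
        exact hyi
      · rcases Finset.mem_insert.mp hj with rfl | hj
        · rw [map_mul, hbig _ hzn', one_mul]
          exact hyn
        · rw [map_mul, hsmall _ (hzS j hj), ← map_mul]
          exact hM (M + 1) (Nat.le_succ M) j hj

/-- **Approximate idempotents**: an element close to `1` at `i` and close to `0` at all
`j ∈ S`, to any prescribed precision. -/
theorem wa_idem {ι : Type*} (V : ι → ValuationSubring E) (harch : ∀ i, VArch (V i))
    (hinc : ∀ i j, i ≠ j → ¬ V i ≤ V j) (htop : ∀ i, V i ≠ ⊤) (i : ι) (S : Finset ι)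
    (hi : i ∉ S) (c : ι → E) (hc : ∀ j, c j ≠ 0) :
    ∃ e : E, (V i).valuation (e - 1) ≤ (V i).valuation (c i) ∧
      ∀ j ∈ S, (V j).valuation e ≤ (V j).valuation (c j) := by
  classical
  obtain ⟨z, hzi, hzS⟩ := wa_sep V harch hinc htop i S hi
  have hz0 : z ≠ 0 := by
    rintro rfl
    rw [map_zero] at hzi
    exact not_lt.mpr zero_le_one hzi
  have hwi : (V i).valuation z⁻¹ < 1 := by
    rw [map_inv₀]
    exact inv_lt_one_of_one_lt₀ hzi
  obtain ⟨M, hM⟩ := wa_uniform V harch S z hzS (fun j => (c j)⁻¹)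
  obtain ⟨M', hM'⟩ := harch i z⁻¹ hwi (c i)⁻¹
  set m := max M M' + 1 with hm
  have hmM : M ≤ m := le_trans (le_max_left _ _) (Nat.le_succ _)
  have hmM' : M' ≤ m := le_trans (le_max_right _ _) (Nat.le_succ _)
  have hm0 : m ≠ 0 := Nat.succ_ne_zero _
  have hlt : ∀ (W : ValuationSubring E) (x y : E), y ≠ 0 → W.valuation (x * y⁻¹) < 1 →
      W.valuation x ≤ W.valuation y := by
    intro W x y hy h
    rw [map_mul, map_inv₀] at h
    have hy' : 0 < W.valuation y := zero_lt_iff.mpr ((Valuation.ne_zero_iff _).mpr hy)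
    have h' := (mul_inv_lt_iff₀ hy').mp h
    rw [one_mul] at h'
    exact h'.le
  refine ⟨z ^ m * (1 + z ^ m)⁻¹, ?_, fun j hj => ?_⟩
  · have h1 : (1 : (V i).ValueGroup) < (V i).valuation (z ^ m) := by
      rw [map_pow]
      exact one_lt_pow' hzi hm0
    have h2 : (V i).valuation (1 + z ^ m) = (V i).valuation (z ^ m) := by
      refine Valuation.map_add_eq_of_lt_right (v := (V i).valuation) ?_
      rw [map_one]
      exact h1
    have h3 : (1 : E) + z ^ m ≠ 0 := by
      intro h0
      rw [h0, map_zero] at h2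
      rw [← h2] at h1
      exact not_lt.mpr zero_le_one h1
    have h4 : z ^ m * (1 + z ^ m)⁻¹ - 1 = -((z⁻¹) ^ m * (z ^ m * (1 + z ^ m)⁻¹)) := by
      have hzm : z ^ m ≠ 0 := pow_ne_zero _ hz0
      rw [inv_pow, ← mul_assoc, inv_mul_cancel₀ hzm, one_mul]
      field_simp
      ring
    have h5 : (V i).valuation (z ^ m * (1 + z ^ m)⁻¹) = 1 := by
      rw [map_mul, map_inv₀, h2]
      exact mul_inv_cancel₀ ((Valuation.ne_zero_iff _).mpr (pow_ne_zero _ hz0))
    rw [h4, Valuation.map_neg, map_mul, h5, mul_one]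
    exact hlt _ _ _ (hc i) (hM' m hmM')
  · have h1 : (V j).valuation (z ^ m) < 1 := by
      rw [map_pow]
      exact pow_lt_one' (hzS j hj) hm0
    have h2 : (V j).valuation (1 + z ^ m) = 1 :=
      Valuation.map_one_add_of_lt (v := (V j).valuation) h1
    rw [map_mul, map_inv₀, h2, inv_one, mul_one]
    exact hlt _ _ _ (hc j) (hM m hmM j hj)

/-- **Weak approximation** for finitely many pairwise incomparable archimedean valuation
subrings of a field, valuation form. -/
theorem weakApprox_val {ι : Type*} [Fintype ι] (V : ι → ValuationSubring E)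
    (harch : ∀ i, VArch (V i)) (hinc : ∀ i j, i ≠ j → ¬ V i ≤ V j) (htop : ∀ i, V i ≠ ⊤)
    (a b : ι → E) (hb : ∀ i, b i ≠ 0) :
    ∃ g : E, ∀ i, (V i).valuation (g - a i) ≤ (V i).valuation (b i) := by
  classical
  -- the approximate idempotents
  have hex : ∀ i, ∃ e : E, (a i ≠ 0 →
      (V i).valuation (e - 1) ≤ (V i).valuation (b i * (a i)⁻¹) ∧
      ∀ j ∈ Finset.univ.erase i, (V j).valuation e ≤ (V j).valuation (b j * (a i)⁻¹)) := by
    intro i
    by_cases hai : a i = 0
    · exact ⟨0, fun h => absurd hai h⟩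
    · obtain ⟨e, he1, he2⟩ := wa_idem V harch hinc htop i (Finset.univ.erase i)
        (Finset.notMem_erase i _) (fun j => b j * (a i)⁻¹)
        (fun j => mul_ne_zero (hb j) (inv_ne_zero hai))
      exact ⟨e, fun _ => ⟨he1, he2⟩⟩
  choose e he using hex
  refine ⟨∑ i, a i * e i, fun k => ?_⟩
  have hsum : ∑ i, a i * e i - a k = ∑ i, a i * (e i - if i = k then 1 else 0) := by
    simp only [mul_sub, Finset.sum_sub_distrib, mul_ite, mul_one, mul_zero,
      Finset.sum_ite_eq', Finset.mem_univ, if_true]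
  rw [hsum]
  refine Valuation.map_sum_le _ fun i _ => ?_
  by_cases hai : a i = 0
  · rw [hai, zero_mul, map_zero]
    exact zero_le
  have hval : ∀ x : E, (V k).valuation x ≤ (V k).valuation (b k * (a i)⁻¹) →
      (V k).valuation (a i * x) ≤ (V k).valuation (b k) := by
    intro x hx
    have h1 : (V k).valuation (a i * x) ≤ (V k).valuation (a i * (b k * (a i)⁻¹)) := by
      rw [map_mul, map_mul (V k).valuation (a i)]
      exact mul_le_mul_right hx _
    have h2 : a i * (b k * (a i)⁻¹) = b k := by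
      field_simp
    rwa [h2] at h1
  by_cases hik : i = k
  · rw [if_pos hik]
    subst hik
    exact hval _ (he i hai).1
  · rw [if_neg hik, sub_zero]
    exact hval _ ((he i hai).2 k (Finset.mem_erase.mpr ⟨Ne.symm hik, Finset.mem_univ k⟩))

/-- **Weak approximation**, membership form: `g - a i ∈ b i • V i`. -/
theorem weakApprox_mem {ι : Type*} [Fintype ι] (V : ι → ValuationSubring E)
    (harch : ∀ i, VArch (V i)) (hinc : ∀ i j, i ≠ j → ¬ V i ≤ V j) (htop : ∀ i, V i ≠ ⊤)
    (a b : ι → E) (hb : ∀ i, b i ≠ 0) :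
    ∃ g : E, ∀ i, ∃ c ∈ V i, g - a i = b i * c := by
  obtain ⟨g, hg⟩ := weakApprox_val V harch hinc htop a b hb
  refine ⟨g, fun i => ⟨(g - a i) * (b i)⁻¹, ?_, ?_⟩⟩
  · rw [← ValuationSubring.valuation_le_one_iff, map_mul, map_inv₀]
    have hb' : 0 < (V i).valuation (b i) := zero_lt_iff.mpr ((Valuation.ne_zero_iff _).mpr (hb i))
    rw [mul_inv_le_iff₀ hb', one_mul]
    exact hg i
  · field_simp [hb i]

/-! ### Discrete valuation rings -/

/-- a discrete valuation subring is archimedean -/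
theorem vArch_of_dvr (V : ValuationSubring E) [IsDiscreteValuationRing V] : VArch V := by
  intro z hz y
  obtain ⟨ϖ, hϖ⟩ := IsDiscreteValuationRing.exists_irreducible V
  have hzV : z ∈ V := (V.valuation_le_one_iff z).mp hz.le
  have hzm : (⟨z, hzV⟩ : V) ∈ IsLocalRing.maximalIdeal V := (V.valuation_lt_one_iff _).mpr hz
  rw [hϖ.maximalIdeal_eq, Ideal.mem_span_singleton'] at hzm
  obtain ⟨c, hc⟩ := hzm
  have hϖ1 : V.valuation (ϖ : E) < 1 := by
    refine (V.valuation_lt_one_iff ϖ).mp ?_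
    rw [hϖ.maximalIdeal_eq]
    exact Ideal.mem_span_singleton_self ϖ
  have hϖ0 : V.valuation (ϖ : E) ≠ 0 := by
    rw [Valuation.ne_zero_iff]
    intro h
    exact hϖ.ne_zero (Subtype.ext h)
  have hzϖ : V.valuation z ≤ V.valuation (ϖ : E) := by
    have h1 : z = (c : E) * (ϖ : E) := (congrArg Subtype.val hc).symm
    rw [h1, map_mul]
    exact mul_le_of_le_one_left' (V.valuation_le_one c)
  rcases V.mem_or_inv_mem y with hy | hy
  · refine ⟨1, fun m hm => ?_⟩
    rw [map_mul, map_pow]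
    have h1 : V.valuation z ^ m < 1 := pow_lt_one' hz (by omega)
    exact mul_lt_one_of_lt_of_le h1 ((V.valuation_le_one_iff y).mpr hy)
  · by_cases hy0 : y = 0
    · refine ⟨0, fun m _ => ?_⟩
      rw [hy0, mul_zero, map_zero]
      exact zero_lt_one
    have hyi0 : (⟨y⁻¹, hy⟩ : V) ≠ 0 := fun h => inv_ne_zero hy0 (congrArg Subtype.val h)
    obtain ⟨n, u, hu⟩ := IsDiscreteValuationRing.eq_unit_mul_pow_irreducible hyi0 hϖ
    have hvy : V.valuation y⁻¹ = V.valuation (ϖ : E) ^ n := by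
      have h1 : y⁻¹ = ((u : V) : E) * (ϖ : E) ^ n := congrArg Subtype.val hu
      rw [h1, map_mul, map_pow, V.valuation_unit u, one_mul]
    have hvy' : V.valuation y = (V.valuation (ϖ : E) ^ n)⁻¹ := by
      rw [← hvy, map_inv₀, inv_inv]
    refine ⟨n + 1, fun m hm => ?_⟩
    obtain ⟨d, rfl⟩ : ∃ d, m = n + (d + 1) := ⟨m - (n + 1), by omega⟩
    rw [map_mul, map_pow, hvy']
    have h1 : V.valuation z ^ (n + (d + 1)) ≤ V.valuation (ϖ : E) ^ (n + (d + 1)) :=
      pow_le_pow_left' hzϖ _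
    have h2 : V.valuation (ϖ : E) ^ (n + (d + 1)) * (V.valuation (ϖ : E) ^ n)⁻¹ =
        V.valuation (ϖ : E) ^ (d + 1) := by
      rw [pow_add, mul_comm (V.valuation (ϖ : E) ^ n), mul_assoc,
        mul_inv_cancel₀ (pow_ne_zero _ hϖ0), mul_one]
    calc V.valuation z ^ (n + (d + 1)) * (V.valuation (ϖ : E) ^ n)⁻¹
        ≤ V.valuation (ϖ : E) ^ (n + (d + 1)) * (V.valuation (ϖ : E) ^ n)⁻¹ :=
          mul_le_mul_left h1 _
      _ = V.valuation (ϖ : E) ^ (d + 1) := h2
      _ < 1 := pow_lt_one' hϖ1 (Nat.succ_ne_zero d)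

theorem ne_top_of_dvr (V : ValuationSubring E) [IsDiscreteValuationRing V] : V ≠ ⊤ := by
  intro h
  obtain ⟨ϖ, hϖ⟩ := IsDiscreteValuationRing.exists_irreducible V
  have h0 : (ϖ : E) ≠ 0 := fun h' => hϖ.ne_zero (Subtype.ext h')
  have hmem : (ϖ : E)⁻¹ ∈ V := by
    have h1 := ValuationSubring.mem_top (K := E) (ϖ : E)⁻¹
    rwa [← h] at h1
  apply hϖ.not_isUnit
  refine IsUnit.of_mul_eq_one (⟨(ϖ : E)⁻¹, hmem⟩ : V) ?_
  exact Subtype.ext (mul_inv_cancel₀ h0)

theorem not_le_of_dvr (V W : ValuationSubring E) [IsDiscreteValuationRing V]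
    [IsDiscreteValuationRing W] (h : V ≠ W) : ¬ V ≤ W := fun hle =>
  h (ValuationSubring.eq_of_le_of_ne_top V hle (ne_top_of_dvr W))

/-- **Weak approximation for discrete valuation rings** (SS2-A4, part (1)): `V i` pairwise
distinct discrete valuation subrings of a field `E`, `a i ∈ E`, `b i ∈ E` nonzero: there is
`g ∈ E` with `g - a i ∈ b i • V i` for all `i`. -/
theorem weakApprox_dvr {ι : Type*} [Fintype ι] (V : ι → ValuationSubring E)
    (hV : Function.Injective V) (hdvr : ∀ i, IsDiscreteValuationRing (V i))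
    (a b : ι → E) (hb : ∀ i, b i ≠ 0) :
    ∃ g : E, ∀ i, ∃ c ∈ V i, g - a i = b i * c :=
  weakApprox_mem V (fun i => haveI := hdvr i; vArch_of_dvr (V i))
    (fun i j hij => haveI := hdvr i; haveI := hdvr j
      not_le_of_dvr (V i) (V j) fun h => hij (hV h))
    (fun i => haveI := hdvr i; ne_top_of_dvr (V i)) a b hb

/-- Weak approximation with prescribed powers of uniformisers: `g - a i ∈ (ϖ i) ^ N • V i`. -/
theorem weakApprox_dvr_pow {ι : Type*} [Fintype ι] (V : ι → ValuationSubring E)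
    (hV : Function.Injective V) (hdvr : ∀ i, IsDiscreteValuationRing (V i))
    (ϖ : ι → E) (hϖ : ∀ i, ϖ i ≠ 0) (a : ι → E) (N : ℕ) :
    ∃ g : E, ∀ i, ∃ c ∈ V i, g - a i = ϖ i ^ N * c :=
  weakApprox_dvr V hV hdvr a (fun i => ϖ i ^ N) fun i => pow_ne_zero _ (hϖ i)

/-- Weak approximation of units: if the `a i` are units of `V i` and the `ϖ i` are nonunits,
then `g` is a unit of every `V i`. -/
theorem weakApprox_dvr_unit {ι : Type*} [Fintype ι] (V : ι → ValuationSubring E)
    (hV : Function.Injective V) (hdvr : ∀ i, IsDiscreteValuationRing (V i))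
    (ϖ : ι → E) (hϖ : ∀ i, ϖ i ≠ 0) (hϖV : ∀ i, (V i).valuation (ϖ i) < 1)
    (a : ι → E) (ha : ∀ i, (V i).valuation (a i) = 1) (N : ℕ) :
    ∃ g : E, ∀ i, (V i).valuation g = 1 ∧ ∃ c ∈ V i, g - a i = ϖ i ^ (N + 1) * c := by
  obtain ⟨g, hg⟩ := weakApprox_dvr_pow V hV hdvr ϖ hϖ a (N + 1)
  refine ⟨g, fun i => ⟨?_, hg i⟩⟩
  obtain ⟨c, hc, h⟩ := hg i
  have h1 : g = a i + ϖ i ^ (N + 1) * c := by rw [← h]; ring
  have h2 : (V i).valuation (ϖ i ^ (N + 1) * c) < 1 := by
    rw [map_mul, map_pow]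
    exact mul_lt_one_of_lt_of_le (pow_lt_one' (hϖV i) (Nat.succ_ne_zero N))
      ((V i).valuation_le_one_iff c |>.mpr hc)
  rw [h1, ← ha i]
  refine Valuation.map_add_eq_of_lt_left (v := (V i).valuation) ?_
  rw [ha i]
  exact h2

end Fermat.Agent.H37.SS2
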