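/-
P-SS2, row 1023 SS2-J8b KUM-NEW (helper37): `KummerNewStatement` from `KummerPushStatement`.

Key lemma: the descent homomorphism `Pic⁰(ℚ̄(X₀(N))) → Pic⁰(ℂ(X₀(N)))` commutes with the two
push-forwards `pushA`, `pushB` (second clause of `H29.pullPushBCStatement` with the squares
`H29.squareCompat_alpha`, `H29.squareCompat_beta`).
-/
import Fermat.Agent.H63.SS2.Interfaces
import Fermat.Agent.H23.EsA.Unconditional

set_option autoImplicit false
set_option linter.style.haveILetI false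

noncomputable section

namespace Fermat.Agent.H37.SS2

open AlgebraicCurve ModularCurve CongruenceSubgroup Fermat.Agent.H63.SS2 Fermat.Agent.H23.EsA
open Fermat.Agent.H29

section Descent

variable (L q : ℕ) [NeZero L] [NeZero q] (ι : AlgebraicClosure ℚ →+* ℂ)

/-- Descent commutes with the push-forward along `α`. -/
theorem knDescent_pushA (hq : q.Prime) (x : JZero (L * q)) :
    descentHom L ι (pushA (AlgebraicClosure ℚ) L q x)
      = pushA ℂ L q (descentHom (L * q) ι x) := by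
  haveI : CharZero (AlgebraicClosure ℚ) := algebraRat.charZero _
  have hk := degInputs (AlgebraicClosure ℚ) L q hq
  have hC := degInputs ℂ L q hq
  haveI : HasPrincipalDivisors (AlgebraicClosure ℚ)
      ↥(laurentBaseChange (AlgebraicClosure ℚ) (modularFunctionFieldFull (L * q))) :=
    Fermat.Agent.H93.esc_pd_of_isFunctionField _ (Fermat.Agent.H54.isFunctionField _) (L * q)
  haveI : HasPrincipalDivisors ℂ ↥(laurentBaseChange ℂ (modularFunctionFieldFull (L * q))) :=
    Fermat.Agent.H93.esc_pd_of_isFunctionField _ (Fermat.Agent.H54.isFunctionField _) (L * q)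
  obtain ⟨D, rfl⟩ := Pic0.mk_surjective x
  rw [pushA_mk hk hk.1, descentHom_mk, descentHom_mk, pushA_mk hC hC.1]
  refine congrArg Pic0.mk (Subtype.ext ?_)
  rw [coe_degZeroBC, coe_degZeroPushAlong, coe_degZeroPushAlong, coe_degZeroBC]
  exact (pullPushBCStatement _ _ _ _ _ _ (cE L ι) (cE (L * q) ι)
    (heckeAlphaBar (AlgebraicClosure ℚ) L q) (heckeAlphaBar ℂ L q) hk.1 hC.1
    (squareCompat_alpha L ι q) (extC L ι) (extC (L * q) ι) (extC_isPlaceExt L ι)
    (extC_isPlaceExt (L * q) ι)).2 _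

/-- Descent commutes with the push-forward along `β`. -/
theorem knDescent_pushB (hq : q.Prime) (x : JZero (L * q)) :
    descentHom L ι (pushB (AlgebraicClosure ℚ) L q x)
      = pushB ℂ L q (descentHom (L * q) ι x) := by
  haveI : CharZero (AlgebraicClosure ℚ) := algebraRat.charZero _
  have hk := degInputs (AlgebraicClosure ℚ) L q hq
  have hC := degInputs ℂ L q hq
  haveI : HasPrincipalDivisors (AlgebraicClosure ℚ)
      ↥(laurentBaseChange (AlgebraicClosure ℚ) (modularFunctionFieldFull (L * q))) :=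
    Fermat.Agent.H93.esc_pd_of_isFunctionField _ (Fermat.Agent.H54.isFunctionField _) (L * q)
  haveI : HasPrincipalDivisors ℂ ↥(laurentBaseChange ℂ (modularFunctionFieldFull (L * q))) :=
    Fermat.Agent.H93.esc_pd_of_isFunctionField _ (Fermat.Agent.H54.isFunctionField _) (L * q)
  obtain ⟨D, rfl⟩ := Pic0.mk_surjective x
  rw [pushB_mk hk hk.2.1, descentHom_mk, descentHom_mk, pushB_mk hC hC.2.1]
  refine congrArg Pic0.mk (Subtype.ext ?_)
  rw [coe_degZeroBC, coe_degZeroPushAlong, coe_degZeroPushAlong, coe_degZeroBC]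
  exact (pullPushBCStatement _ _ _ _ _ _ (cE L ι) (cE (L * q) ι)
    (heckeBetaBar (AlgebraicClosure ℚ) L q) (heckeBetaBar ℂ L q) hk.2.1 hC.2.1
    (squareCompat_beta L ι q) (extC L ι) (extC (L * q) ι) (extC_isPlaceExt L ι)
    (extC_isPlaceExt (L * q) ι)).2 _

end Descent

section Rel

variable (N : ℕ) [NeZero N]

/-- The zero class has the trivial character. -/
theorem kn_rel_zero_one {m : ℕ} (hm : 0 < m) :
    TorsionCharRel N m (0 : Pic0 ℂ ↥(Fermat.Agent.H23.EsA.FC N)) 1 := by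
  obtain ⟨h1, h2, -, h4, -, -⟩ := torsionCharStatement N m hm
  have h0 : (0 : Pic0 ℂ ↥(Fermat.Agent.H23.EsA.FC N)) ∈ Pic0.torsion ℂ ↥(Fermat.Agent.H23.EsA.FC N) m := by
    rw [Pic0.mem_torsion, smul_zero]
  obtain ⟨χ₀, hχ₀⟩ := h1 0 h0
  have h5 := h4 0 0 χ₀ χ₀ hχ₀ hχ₀
  rw [add_zero] at h5
  have h6 : χ₀ * χ₀ = χ₀ := h2 0 _ _ h5 hχ₀
  have h7 : χ₀ = 1 := mul_left_cancel (a := χ₀) (h6.trans (mul_one χ₀).symm)
  rw [← h7]
  exact hχ₀

/-- A class with a character `ψ` vanishes iff `ψ = 1`. -/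
theorem kn_rel_eq_one_iff {m : ℕ} (hm : 0 < m) (y : Pic0 ℂ ↥(Fermat.Agent.H23.EsA.FC N))
    (ψ : ↥(Gamma0 N) →* ℂˣ) (h : TorsionCharRel N m y ψ) : ψ = 1 ↔ y = 0 := by
  obtain ⟨-, h2, -, -, h5, -⟩ := torsionCharStatement N m hm
  constructor
  · rintro rfl
    exact h5 y h
  · rintro rfl
    exact h2 0 _ _ h (kn_rel_zero_one N hm)

end Rel

/-- **J8b (KUM-NEW)**, row 1023: `Fermat.Agent.H63.SS2.KummerNewStatement` from
`KummerPushStatement`. -/
theorem kummerNew (hpush : KummerPushStatement) : KummerNewStatement := by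
  intro L q _ _ hq hqL ι m hm x χ hrel
  obtain ⟨hA, hB⟩ := hpush L q hq hqL m hm _ χ hrel
  have hinj : ∀ y : JZero L, descentHom L ι y = 0 ↔ y = 0 := fun y =>
    ⟨fun h => descentHom_injective L ι (by rw [h, map_zero]), fun h => by rw [h, map_zero]⟩
  refine ⟨?_, ?_⟩
  · rw [kn_rel_eq_one_iff L hm _ _ hA, ← knDescent_pushA L q ι hq x, hinj]
  · rw [kn_rel_eq_one_iff L hm _ _ hB, ← knDescent_pushB L q ι hq x, hinj]

end Fermat.Agent.H37.SS2

end
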