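/-
P-SS2 / P-SS, J-side (helper37): part (b) DESCENT of row 1055 (SS2-J4 KUM-NEW), in the language
of `Fermat.Agent.H52.SS.JInterfaces`:

the descent homomorphism `J₀(M)(ℚ̄) → Pic⁰(ℂ(X₀(M)))` commutes with the degeneracy push-forwards
`jPushA`, `jPushB` (over `ℚ̄`) versus `cPushA`, `cPushB` (over `ℂ`).
-/
import Fermat.Agent.H52.SS.JInterfaces
import Fermat.Agent.H29.ESB.HeckeFinal
import Fermat.Agent.H23.EsA.Unconditional

set_option autoImplicit false
set_option linter.style.haveILetI false

noncomputable section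

namespace Fermat.Agent.H37.SS2

open AlgebraicCurve ModularCurve CongruenceSubgroup Fermat.Agent.H52.SS
open Fermat.Agent.H29

section Descent

variable (N q : ℕ) [NeZero N] [NeZero q] (ι : AlgebraicClosure ℚ →+* ℂ)

/-- Descent commutes with the push-forward along `α` (language of `H52.SS`). -/
theorem jdDescent_jPushA (hq : q.Prime) (x : JZero (N * q)) :
    descentHom N ι (jPushA N q hq x) = cPushA N q hq (descentHom (N * q) ι x) := by
  haveI : CharZero (AlgebraicClosure ℚ) := algebraRat.charZero _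
  haveI : HasPrincipalDivisors (AlgebraicClosure ℚ)
      ↥(laurentBaseChange (AlgebraicClosure ℚ) (modularFunctionFieldFull (N * q))) :=
    Fermat.Agent.H93.esc_pd_of_isFunctionField _ (Fermat.Agent.H54.isFunctionField _) (N * q)
  haveI : HasPrincipalDivisors ℂ ↥(laurentBaseChange ℂ (modularFunctionFieldFull (N * q))) :=
    Fermat.Agent.H93.esc_pd_of_isFunctionField _ (Fermat.Agent.H54.isFunctionField _) (N * q)
  obtain ⟨D, rfl⟩ := Pic0.mk_surjective x
  unfold jPushA cPushA
  rw [pic0PushforwardAlong_mk, descentHom_mk, descentHom_mk, pic0PushforwardAlong_mk]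
  refine congrArg Pic0.mk (Subtype.ext ?_)
  rw [coe_degZeroBC, coe_degZeroPushforwardAlong, coe_degZeroPushforwardAlong, coe_degZeroBC]
  exact (pullPushBCStatement _ _ _ _ _ _ (cE N ι) (cE (N * q) ι)
    (heckeAlphaBar (AlgebraicClosure ℚ) N q) (heckeAlphaBar ℂ N q) _ _
    (squareCompat_alpha N ι q) (extC N ι) (extC (N * q) ι) (extC_isPlaceExt N ι)
    (extC_isPlaceExt (N * q) ι)).2 _

/-- Descent commutes with the push-forward along `β` (language of `H52.SS`). -/
theorem jdDescent_jPushB (hq : q.Prime) (x : JZero (N * q)) :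
    descentHom N ι (jPushB N q hq x) = cPushB N q hq (descentHom (N * q) ι x) := by
  haveI : CharZero (AlgebraicClosure ℚ) := algebraRat.charZero _
  haveI : HasPrincipalDivisors (AlgebraicClosure ℚ)
      ↥(laurentBaseChange (AlgebraicClosure ℚ) (modularFunctionFieldFull (N * q))) :=
    Fermat.Agent.H93.esc_pd_of_isFunctionField _ (Fermat.Agent.H54.isFunctionField _) (N * q)
  haveI : HasPrincipalDivisors ℂ ↥(laurentBaseChange ℂ (modularFunctionFieldFull (N * q))) :=
    Fermat.Agent.H93.esc_pd_of_isFunctionField _ (Fermat.Agent.H54.isFunctionField _) (N * q)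
  obtain ⟨D, rfl⟩ := Pic0.mk_surjective x
  unfold jPushB cPushB
  rw [pic0PushforwardAlong_mk, descentHom_mk, descentHom_mk, pic0PushforwardAlong_mk]
  refine congrArg Pic0.mk (Subtype.ext ?_)
  rw [coe_degZeroBC, coe_degZeroPushforwardAlong, coe_degZeroPushforwardAlong, coe_degZeroBC]
  exact (pullPushBCStatement _ _ _ _ _ _ (cE N ι) (cE (N * q) ι)
    (heckeBetaBar (AlgebraicClosure ℚ) N q) (heckeBetaBar ℂ N q) _ _
    (squareCompat_beta N ι q) (extC N ι) (extC (N * q) ι) (extC_isPlaceExt N ι)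
    (extC_isPlaceExt (N * q) ι)).2 _

/-- A class of `J₀(N q)(ℚ̄)` is killed by `jPushA` iff its descent is killed by `cPushA`. -/
theorem jd_jPushA_eq_zero_iff (hq : q.Prime) (x : JZero (N * q)) :
    jPushA N q hq x = 0 ↔ cPushA N q hq (descentHom (N * q) ι x) = 0 := by
  rw [← jdDescent_jPushA N q ι hq x]
  exact ⟨fun h => by rw [h, map_zero],
    fun h => descentHom_injective N ι (by rw [h, map_zero])⟩

/-- A class of `J₀(N q)(ℚ̄)` is killed by `jPushB` iff its descent is killed by `cPushB`. -/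
theorem jd_jPushB_eq_zero_iff (hq : q.Prime) (x : JZero (N * q)) :
    jPushB N q hq x = 0 ↔ cPushB N q hq (descentHom (N * q) ι x) = 0 := by
  rw [← jdDescent_jPushB N q ι hq x]
  exact ⟨fun h => by rw [h, map_zero],
    fun h => descentHom_injective N ι (by rw [h, map_zero])⟩

end Descent

section New

variable (N q : ℕ) [NeZero N] [NeZero q] (ι : AlgebraicClosure ℚ →+* ℂ)

/-- **Part (b)+(c) glue of SS2-J4.**  Given `PushCharStatement`: if the descent of
`x ∈ J₀(N q)(ℚ̄)` has Kummer character `χ` and both transfers of `χ` are trivial, then `x` is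
killed by both degeneracy push-forwards. -/
theorem jd_push_zero_of_char (hpc : PushCharStatement) (hq : q.Prime) {m : ℕ} (hm : 0 < m)
    (x : JZero (N * q)) (χ : ↥(Gamma0 (N * q)) →* ℂˣ)
    (hrel : Fermat.Agent.H23.EsA.TorsionCharRel (N * q) m (descentHom (N * q) ι x) χ)
    (hA : pushChar (Fermat.Agent.H63.LR.incl N q) χ = 1)
    (hB : pushChar (Fermat.Agent.H63.LR.conjD N q) χ = 1) :
    jPushA N q hq x = 0 ∧ jPushB N q hq x = 0 := by
  obtain ⟨h1, h2⟩ := hpc N q hq m hm _ χ hrel
  obtain ⟨-, -, -, -, h5, -⟩ := Fermat.Agent.H23.EsA.torsionCharStatement N m hm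
  rw [hA] at h1
  rw [hB] at h2
  exact ⟨(jd_jPushA_eq_zero_iff N q ι hq x).2 (h5 _ h1),
    (jd_jPushB_eq_zero_iff N q ι hq x).2 (h5 _ h2)⟩

end New

end Fermat.Agent.H37.SS2

end
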