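/-
P-SS2 / P-SS, J-side (helper37): the TRANSFER PRODUCT, for row 1055 (SS2-J4 KUM-NEW, part J4b
PUSH-CHAR).

* `transferProd H T G z = ∏ q : Γ ⧸ H, G ((T q)⁻¹ • z)` for a left transversal `T` of a subgroup
  `H` of finite index of `Γ` acting on `Z`;
* `transferProd_smul` : if `G (h • z) = ϕ h * G z` for `h ∈ H`, then
  `transferProd H T G (g • z) = ϕ.transfer g * transferProd H T G z` for every `g ∈ Γ`;
* `pushChar_transferProd` : the same for `Fermat.Agent.H52.SS.pushChar j χ` (`j : Γ' →* Γ`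
  injective with range of finite index);
* `hasCharacter_transferProd_incl`, `hasCharacter_transferProd_conjD` : the two cases
  `j = incl N q`, `j = conjD N q` in the form `Fermat.Agent.H23.EsA.HasCharacter`.
-/
import Fermat.Agent.H52.SS.JInterfaces
import Fermat.Agent.H23.EsA.Defs
import Fermat.Agent.H35.KumNew.IdxConjD

set_option autoImplicit false
set_option linter.style.haveILetI false

noncomputable section

namespace Fermat.Agent.H37.SS2

open Subgroup MulAction
open scoped Pointwise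

section TransferProd

variable {Γ : Type*} [Group Γ] (H : Subgroup Γ) [H.FiniteIndex] {Z : Type*} [MulAction Γ Z]

/-- The product of the translates of `G` by the inverses of a left transversal of `H`. -/
def transferProd (T : H.LeftTransversal) (G : Z → ℂ) (z : Z) : ℂ :=
  letI := H.fintypeQuotientOfFiniteIndex
  ∏ q : Γ ⧸ H, G ((T.2.leftQuotientEquiv q : Γ)⁻¹ • z)

theorem transferProd_def (T : H.LeftTransversal) (G : Z → ℂ) (z : Z) :
    transferProd H T G z =
      letI := H.fintypeQuotientOfFiniteIndex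
      ∏ q : Γ ⧸ H, G ((T.2.leftQuotientEquiv q : Γ)⁻¹ • z) := rfl

/-- If `G` transforms under `H` by the character `ϕ`, the product of its translates by the
inverses of a left transversal transforms under `Γ` by the transfer of `ϕ`. -/
theorem transferProd_smul (ϕ : H →* ℂˣ) (G : Z → ℂ)
    (hG : ∀ (h : H) (z : Z), G ((h : Γ) • z) = (ϕ h : ℂ) * G z)
    (T : H.LeftTransversal) (g : Γ) (z : Z) :
    transferProd H T G (g • z) = (ϕ.transfer g : ℂ) * transferProd H T G z := by
  classical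
  letI := H.fintypeQuotientOfFiniteIndex
  rw [MonoidHom.transfer_def ϕ T g]
  unfold transferProd Subgroup.leftTransversals.diff
  simp only []
  rw [Units.coe_prod]
  have h2 : ∏ q : Γ ⧸ H, G ((T.2.leftQuotientEquiv q : Γ)⁻¹ • z)
      = ∏ q : Γ ⧸ H, G ((T.2.leftQuotientEquiv (g⁻¹ • q) : Γ)⁻¹ • z) :=
    (Fintype.prod_equiv (MulAction.toPerm g⁻¹) _ _ (fun q => rfl)).symm
  rw [h2, ← Finset.prod_mul_distrib]
  refine Finset.prod_congr rfl fun q _ => ?_
  rw [← hG]
  congr 1
  rw [smul_smul, smul_smul]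
  congr 1
  simp only [Subgroup.smul_apply_eq_smul_apply_inv_smul, smul_eq_mul, mul_assoc,
    mul_inv_cancel, mul_one]

/-- The `m`-th power of the transfer product is the transfer product of the `m`-th power. -/
theorem transferProd_pow (T : H.LeftTransversal) (G : Z → ℂ) (m : ℕ) (z : Z) :
    transferProd H T G z ^ m = transferProd H T (G ^ m) z := by
  classical
  letI := H.fintypeQuotientOfFiniteIndex
  unfold transferProd
  rw [← Finset.prod_pow]
  rfl

end TransferProd

section PushChar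

open Fermat.Agent.H52.SS Fermat.Agent.H63.LR

variable {Γ Γ' : Type*} [Group Γ] [Group Γ'] {Z : Type*} [MulAction Γ Z]

/-- The character of the range of an injective `j` corresponding to `χ`. -/
def rangeChar (j : Γ' →* Γ) (hj : Function.Injective j) (χ : Γ' →* ℂˣ) : j.range →* ℂˣ :=
  χ.comp (MonoidHom.ofInjective hj).symm.toMonoidHom

theorem rangeChar_apply (j : Γ' →* Γ) (hj : Function.Injective j) (χ : Γ' →* ℂˣ) (γ' : Γ') :
    rangeChar j hj χ ⟨j γ', ⟨γ', rfl⟩⟩ = χ γ' := by
  unfold rangeChar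
  rw [MonoidHom.comp_apply]
  congr 1
  exact (MonoidHom.ofInjective hj).symm_apply_apply γ'

theorem pushChar_eq_transfer (j : Γ' →* Γ) (hj : Function.Injective j)
    [hfi : j.range.FiniteIndex] (χ : Γ' →* ℂˣ) (γ : Γ) :
    pushChar j χ γ = (rangeChar j hj χ).transfer γ := by
  classical
  unfold pushChar pushHom
  rw [dif_pos ⟨hj, hfi⟩]
  rfl

/-- If `G` transforms under `Γ'` (acting through `j`) by the character `χ`, the transfer
product of `G` transforms under `Γ` by the transfer `pushChar j χ` of `χ`. -/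
theorem pushChar_transferProd (j : Γ' →* Γ) (hj : Function.Injective j)
    [hfi : j.range.FiniteIndex] (χ : Γ' →* ℂˣ) (G : Z → ℂ)
    (hG : ∀ (γ' : Γ') (z : Z), G (j γ' • z) = (χ γ' : ℂ) * G z)
    (T : j.range.LeftTransversal) (γ : Γ) (z : Z) :
    transferProd j.range T G (γ • z) = (pushChar j χ γ : ℂ) * transferProd j.range T G z := by
  rw [pushChar_eq_transfer j hj χ γ]
  refine transferProd_smul j.range (rangeChar j hj χ) G ?_ T γ z
  rintro ⟨h, γ', rfl⟩ z
  rw [rangeChar_apply]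
  exact hG γ' z

end PushChar

section Modular

open Fermat.Agent.H52.SS Fermat.Agent.H63.LR CongruenceSubgroup UpperHalfPlane
open scoped MatrixGroups

variable (N q : ℕ)

/-- **(J4b, character part, `α`).**  If `G` transforms under `Γ₀(N q)` by `χ`, the transfer
product of `G` over `Γ₀(N) / Γ₀(N q)` transforms under `Γ₀(N)` by `pushChar (incl N q) χ`. -/
theorem hasCharacter_transferProd_incl [hfi : (incl N q).range.FiniteIndex]
    (χ : ↥(Gamma0 (N * q)) →* ℂˣ) (G : ℍ → ℂ)
    (hG : Fermat.Agent.H23.EsA.HasCharacter (N * q) G χ)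
    (T : (incl N q).range.LeftTransversal) :
    Fermat.Agent.H23.EsA.HasCharacter N (transferProd (incl N q).range T G)
      (pushChar (incl N q) χ) := by
  intro γ z
  exact pushChar_transferProd (incl N q) (incl_injective N q) χ G (fun γ' z => hG γ' z) T γ z

/-- **(J4b, character part, `β`).**  If `G` transforms under `Γ₀(N q)` by `χ` and
`d : ℍ → ℍ` intertwines `conjD N q γ'` with `γ'` (e.g. `d z = z / q`), the transfer product of
`G ∘ d` over `Γ₀(N) / conjD (Γ₀(N q))` transforms under `Γ₀(N)` by `pushChar (conjD N q) χ`. -/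
theorem hasCharacter_transferProd_conjD [hfi : (conjD N q).range.FiniteIndex]
    (hinj : Function.Injective (conjD N q))
    (χ : ↥(Gamma0 (N * q)) →* ℂˣ) (G : ℍ → ℂ)
    (hG : Fermat.Agent.H23.EsA.HasCharacter (N * q) G χ) (d : ℍ → ℍ)
    (hd : ∀ (γ' : ↥(Gamma0 (N * q))) (z : ℍ),
      d (((conjD N q γ' : ↥(Gamma0 N)) : SL(2, ℤ)) • z) = (γ' : SL(2, ℤ)) • d z)
    (T : (conjD N q).range.LeftTransversal) :
    Fermat.Agent.H23.EsA.HasCharacter N (transferProd (conjD N q).range T (G ∘ d))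
      (pushChar (conjD N q) χ) := by
  intro γ z
  refine pushChar_transferProd (conjD N q) hinj χ (G ∘ d) (fun γ' z => ?_) T γ z
  show G (d (((conjD N q γ' : ↥(Gamma0 N)) : SL(2, ℤ)) • z)) = _
  rw [hd γ' z]
  exact hG γ' (d z)

/-- `z ↦ z / q` on the upper half plane. -/
def divQ (hq : 0 < q) (z : ℍ) : ℍ :=
  ⟨(z : ℂ) / (q : ℂ), by
    have h1 : ((z : ℂ) / (q : ℂ)).im = z.im / (q : ℝ) := by
      rw [show ((q : ℂ)) = ((q : ℝ) : ℂ) by push_cast; rfl, Complex.div_ofReal_im]
      rfl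
    rw [h1]
    exact div_pos z.im_pos (by exact_mod_cast hq)⟩

theorem coe_divQ (hq : 0 < q) (z : ℍ) : ((divQ q hq z : ℍ) : ℂ) = (z : ℂ) / (q : ℂ) := rfl

/-- `z ↦ z / q` intertwines `conjD N q γ'` with `γ'`. -/
theorem divQ_conjD (hq : 0 < q) (γ' : ↥(Gamma0 (N * q))) (z : ℍ) :
    divQ q hq (((conjD N q γ' : ↥(Gamma0 N)) : SL(2, ℤ)) • z)
      = (γ' : SL(2, ℤ)) • divQ q hq z := by
  apply UpperHalfPlane.ext
  rw [coe_divQ, coe_specialLinearGroup_apply, coe_specialLinearGroup_apply, coe_divQ]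
  obtain ⟨c₀, hc₀⟩ := q_dvd_of_mem_Gamma0_mul γ'.2
  have hq0 : (q : ℂ) ≠ 0 := by exact_mod_cast hq.ne'
  have hqz : (q : ℤ) ≠ 0 := by exact_mod_cast hq.ne'
  have e00 : ((conjD N q γ' : ↥(Gamma0 N)) : SL(2, ℤ)) 0 0 = (γ' : SL(2, ℤ)) 0 0 := rfl
  have e01 : ((conjD N q γ' : ↥(Gamma0 N)) : SL(2, ℤ)) 0 1 = q * (γ' : SL(2, ℤ)) 0 1 := rfl
  have e10 : ((conjD N q γ' : ↥(Gamma0 N)) : SL(2, ℤ)) 1 0 = c₀ := by
    show ((γ' : SL(2, ℤ)) : Matrix (Fin 2) (Fin 2) ℤ) 1 0 / q = c₀
    rw [hc₀, Int.mul_ediv_cancel_left _ hqz]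
  have e11 : ((conjD N q γ' : ↥(Gamma0 N)) : SL(2, ℤ)) 1 1 = (γ' : SL(2, ℤ)) 1 1 := rfl
  have e10' : (γ' : SL(2, ℤ)) 1 0 = q * c₀ := hc₀
  rw [e00, e01, e10, e11, e10']
  have hden : ((algebraMap ℤ ℝ c₀ : ℝ) : ℂ) * (z : ℂ)
      + ((algebraMap ℤ ℝ ((γ' : SL(2, ℤ)) 1 1) : ℝ) : ℂ) ≠ 0 := by
    have h := UpperHalfPlane.denom_ne_zero
      (Matrix.SpecialLinearGroup.mapGL ℝ ((conjD N q γ' : ↥(Gamma0 N)) : SL(2, ℤ))) z
    rw [UpperHalfPlane.denom] at h
    simpa [e10, e11] using h
  simp only [algebraMap_int_eq, eq_intCast, Int.cast_mul, Int.cast_natCast, Complex.ofReal_mul,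
    Complex.ofReal_intCast, Complex.ofReal_natCast] at hden ⊢
  field_simp

/-- `conjD N q` is injective (`q > 0`). -/
theorem conjD_injective (hq : 0 < q) : Function.Injective (conjD N q) := by
  intro γ γ' h
  have hqz : (q : ℤ) ≠ 0 := by exact_mod_cast hq.ne'
  have h1 : conjDMat q ((γ : SL(2, ℤ)) : Matrix (Fin 2) (Fin 2) ℤ)
      = conjDMat q ((γ' : SL(2, ℤ)) : Matrix (Fin 2) (Fin 2) ℤ) := by
    rw [← conjD_coe, ← conjD_coe, h]
  obtain ⟨c, hc⟩ := q_dvd_of_mem_Gamma0_mul γ.2
  obtain ⟨c', hc'⟩ := q_dvd_of_mem_Gamma0_mul γ'.2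
  have e00 := congrFun (congrFun h1 0) 0
  have e01 := congrFun (congrFun h1 0) 1
  have e10 := congrFun (congrFun h1 1) 0
  have e11 := congrFun (congrFun h1 1) 1
  simp only [conjDMat, Matrix.of_apply, Matrix.cons_val', Matrix.cons_val_zero,
    Matrix.cons_val_one, Matrix.cons_val_fin_one] at e00 e01 e10 e11
  rw [hc, hc', Int.mul_ediv_cancel_left _ hqz, Int.mul_ediv_cancel_left _ hqz] at e10
  apply Subtype.ext
  apply Subtype.ext
  ext i j
  fin_cases i <;> fin_cases j
  · exact e00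
  · exact mul_left_cancel₀ hqz e01
  · show ((γ : SL(2, ℤ)) : Matrix (Fin 2) (Fin 2) ℤ) 1 0
      = ((γ' : SL(2, ℤ)) : Matrix (Fin 2) (Fin 2) ℤ) 1 0
    rw [hc, hc', e10]
  · exact e11

/-- The range of `incl N q` has finite index in `Γ₀(N)`. -/
theorem incl_range_finiteIndex [NeZero N] [NeZero q] : (incl N q).range.FiniteIndex := by
  have h : (incl N q).range = (Gamma0 (N * q)).subgroupOf (Gamma0 N) := by
    ext g
    rw [Fermat.Agent.H35.KumNew.mem_range_incl_iff, Subgroup.mem_subgroupOf]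
    constructor
    · intro hg
      apply Fermat.Agent.H35.KumNew.mem_Gamma0_of_dvd
      push_cast
      exact hg
    · intro hg
      have := Fermat.Agent.H35.KumNew.dvd_of_mem_Gamma0 hg
      push_cast at this
      exact this
  rw [h]
  infer_instance

/-- The range of `conjD N q` has finite index in `Γ₀(N)`. -/
theorem conjD_range_finiteIndex [NeZero N] [NeZero q] : (conjD N q).range.FiniteIndex := by
  have := incl_range_finiteIndex N q
  refine ⟨?_⟩
  rw [Fermat.Agent.H35.KumNew.index_range_conjD]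
  exact Subgroup.FiniteIndex.index_ne_zero

/-- **(J4b, character part, `α`)**, all instances discharged. -/
theorem hasCharacter_pushA [NeZero N] [NeZero q] (χ : ↥(Gamma0 (N * q)) →* ℂˣ) (G : ℍ → ℂ)
    (hG : Fermat.Agent.H23.EsA.HasCharacter (N * q) G χ) :
    haveI := incl_range_finiteIndex N q
    ∀ T : (incl N q).range.LeftTransversal,
      Fermat.Agent.H23.EsA.HasCharacter N (transferProd (incl N q).range T G)
        (pushChar (incl N q) χ) := by
  haveI := incl_range_finiteIndex N q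
  exact fun T => hasCharacter_transferProd_incl N q χ G hG T

/-- **(J4b, character part, `β`)**, all instances discharged, `d z = z / q`. -/
theorem hasCharacter_pushB [NeZero N] [NeZero q] (χ : ↥(Gamma0 (N * q)) →* ℂˣ) (G : ℍ → ℂ)
    (hG : Fermat.Agent.H23.EsA.HasCharacter (N * q) G χ) :
    haveI := conjD_range_finiteIndex N q
    ∀ T : (conjD N q).range.LeftTransversal,
      Fermat.Agent.H23.EsA.HasCharacter N
        (transferProd (conjD N q).range T (G ∘ divQ q (Nat.pos_of_ne_zero (NeZero.ne q))))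
        (pushChar (conjD N q) χ) := by
  haveI := conjD_range_finiteIndex N q
  exact fun T => hasCharacter_transferProd_conjD N q
    (conjD_injective N q (Nat.pos_of_ne_zero (NeZero.ne q))) χ G hG _
    (divQ_conjD N q (Nat.pos_of_ne_zero (NeZero.ne q))) T

end Modular

end Fermat.Agent.H37.SS2

end
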